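import Fermat.Agent.BashmakovDensity.Count
import Mathlib.LinearAlgebra.Dual.Lemmas
import Mathlib.LinearAlgebra.Matrix.GeneralLinearGroup.Card

/-!
# Affine maps obstructing generation

For `g ∈ GL₂(k)`, `#k = q`, and `r` translations `t i` the number of fixed vectors of `g` times the
number of combinations of the `t i` in the image of `g - 1` exceeds `qʳ` exactly when the classes of
the `t i` do not span the cokernel of `g - 1`: there are
`q²ʳ - (qʳ - 1)(qʳ - q) + (q³ - 2q - 1) qʳ` such pairs.
-/

set_option autoImplicit false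
set_option linter.style.haveILetI false

noncomputable section

open Matrix Finset FA.BashmakovDensity
open scoped Classical

namespace FA.PrimitivePoint

variable {k : Type*} [Field k] [Fintype k] {ι : Type*} [Fintype ι]

/-- A linear map with its fixed vectors and translations does not span its cokernel. -/
def NonSpanning (g : GL (Fin 2) k) (t : ι → Fin 2 → k) : Prop :=
  Fintype.card k ^ Fintype.card ι < Nat.card {v : Fin 2 → k // g.val *ᵥ v = v} *
    Nat.card {a : ι → k // ∃ v, g.val *ᵥ v + ∑ i, a i • t i = v}

/-- The combinations of the translations. -/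
def combMap (t : ι → Fin 2 → k) : (ι → k) →ₗ[k] (Fin 2 → k) := Fintype.linearCombination k t

/-- Pairs of independent vectors of `kʳ`, as translations with the two rows independent. -/
theorem card_spanning : (Nat.card {t : ι → Fin 2 → k // Function.Surjective (combMap t)} : ℝ) =
    ((Fintype.card k : ℝ) ^ Fintype.card ι - 1) *
      ((Fintype.card k : ℝ) ^ Fintype.card ι - Fintype.card k) := by
  have key : ∀ t : ι → Fin 2 → k, Function.Surjective (combMap t) ↔
      LinearIndependent k (fun (j : Fin 2) (i : ι) => t i j) := fun t => by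
    rw [Fintype.linearIndependent_iff, ← LinearMap.range_eq_top]
    constructor
    · intro htop c hc j
      obtain ⟨a, ha⟩ : Pi.single j 1 ∈ LinearMap.range (combMap t) := htop ▸ Submodule.mem_top
      have e : ∑ l, c l * (combMap t a) l = 0 := by
        simp only [combMap, Fintype.linearCombination_apply, Finset.sum_apply, Pi.smul_apply,
          smul_eq_mul, Finset.mul_sum]
        rw [Finset.sum_comm]
        refine Finset.sum_eq_zero fun i _ => ?_
        have hci := congrFun hc i
        simp only [Finset.sum_apply, Pi.smul_apply, smul_eq_mul, Pi.zero_apply] at hci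
        calc ∑ l, c l * (a i * t i l) = a i * ∑ l, c l * t i l := by
              rw [Finset.mul_sum]; exact Finset.sum_congr rfl fun l _ => by ring
          _ = 0 := by rw [hci, mul_zero]
      rw [ha] at e
      simpa [Pi.single_apply] using e
    · intro hli
      by_contra hne
      obtain ⟨φ, hφ, hmap⟩ :=
        Submodule.exists_dual_map_eq_bot_of_lt_top (lt_top_iff_ne_top.mpr hne) inferInstance
      refine hφ (LinearMap.ext fun v => ?_)
      have hφv : ∀ v : Fin 2 → k, φ v = ∑ l, v l * φ (Pi.single l 1) := fun v => by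
        conv_lhs => rw [pi_eq_sum_univ' v]
        rw [map_sum]
        exact Finset.sum_congr rfl fun l _ => by rw [map_smul, smul_eq_mul]
      have hz := hli (fun l => φ (Pi.single l 1)) (funext fun i => by
        have h0 : φ (t i) = 0 := (Submodule.eq_bot_iff _).mp hmap _ (Submodule.mem_map_of_mem
          ⟨Pi.single i 1, by simp [combMap, Fintype.linearCombination_apply_single]⟩)
        rw [hφv] at h0
        simp only [Finset.sum_apply, Pi.smul_apply, smul_eq_mul, Pi.zero_apply]
        rw [← h0]
        exact Finset.sum_congr rfl fun l _ => mul_comm _ _)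
      rw [hφv, LinearMap.zero_apply]
      exact Finset.sum_eq_zero fun l _ => by rw [hz l, mul_zero]
  have hdim : Module.finrank k (ι → k) = Fintype.card ι := Module.finrank_fintype_fun_eq_card k
  rw [Nat.card_congr ((Equiv.piComm fun (_ : ι) (_ : Fin 2) => k).subtypeEquiv
    (q := fun f : Fin 2 → ι → k => LinearIndependent k f) key)]
  by_cases h2 : 2 ≤ Fintype.card ι
  · have hq : Fintype.card k ≤ Fintype.card k ^ Fintype.card ι := Nat.le_self_pow (by omega) _
    have h1 : 1 ≤ Fintype.card k ^ Fintype.card ι := Nat.one_le_pow _ _ Fintype.card_pos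
    rw [card_linearIndependent (K := k) (V := ι → k) (hdim.symm ▸ h2), hdim, Fin.prod_univ_two,
      Fin.val_zero, Fin.val_one, pow_zero, pow_one, Nat.cast_mul, Nat.cast_sub h1, Nat.cast_sub hq,
      Nat.cast_pow, Nat.cast_one]
  · haveI : IsEmpty {f : Fin 2 → ι → k // LinearIndependent k f} := ⟨fun f => h2 (by
      have := f.2.fintype_card_le_finrank
      rwa [hdim, Fintype.card_fin] at this)⟩
    rw [Nat.card_of_isEmpty, Nat.cast_zero]
    interval_cases h : Fintype.card ι
    · simp
    · simp

/-- The three strata. -/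
theorem card_nonSpanning_fibre (g : GL (Fin 2) k) :
    (Nat.card {t : ι → Fin 2 → k // NonSpanning g t} : ℝ) =
      if g = 1 then ((Fintype.card k : ℝ) ^ Fintype.card ι) ^ 2 -
          ((Fintype.card k : ℝ) ^ Fintype.card ι - 1) *
            ((Fintype.card k : ℝ) ^ Fintype.card ι - Fintype.card k)
      else if g.val.trace = g.val.det + 1 then (Fintype.card k : ℝ) ^ Fintype.card ι else 0 := by
  set c := Fintype.card k with hc
  set r := Fintype.card ι with hr
  set U := LinearMap.range (g.val - 1).mulVecLin with hU
  have hdet : (g.val - 1).det = g.val.det + 1 - g.val.trace := by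
    simp [det_fin_two, trace_fin_two]
    ring
  have hfix : Nat.card {v : Fin 2 → k // g.val *ᵥ v = v} * Nat.card U = c ^ 2 := by
    rw [show Nat.card {v : Fin 2 → k // g.val *ᵥ v = v} =
        Nat.card (g.val - 1).mulVecLin.toAddMonoidHom.ker from
      Nat.card_congr (Equiv.subtypeEquivRight fun v => by
        rw [AddMonoidHom.mem_ker, LinearMap.toAddMonoidHom_coe, mulVecLin_apply, sub_mulVec,
          one_mulVec, sub_eq_zero]),
      show Nat.card U = Nat.card (g.val - 1).mulVecLin.toAddMonoidHom.range from
        Nat.card_congr (Equiv.subtypeEquivRight fun v => Iff.rfl),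
      ← AddSubgroup.index_ker, AddSubgroup.card_mul_index, Nat.card_fun, Nat.card_fin,
      Nat.card_eq_fintype_card]
  have hK : ∀ t : ι → Fin 2 → k, Nat.card {a : ι → k // ∃ v, g.val *ᵥ v + ∑ i, a i • t i = v} =
      Nat.card (U.comap (combMap t)) := fun t =>
    Nat.card_congr (Equiv.subtypeEquivRight fun a => by
      rw [Submodule.mem_comap, combMap, Fintype.linearCombination_apply, hU, ← exists_fixed_iff])
  split_ifs with h1 h2
  · have hU0 : U = ⊥ := by
      rw [hU, h1, Units.val_one, sub_self, mulVecLin_zero, LinearMap.range_zero]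
    have hF : Nat.card {v : Fin 2 → k // g.val *ᵥ v = v} = c ^ 2 := by
      rw [← hfix, hU0]; simp
    have hns : ∀ t : ι → Fin 2 → k, NonSpanning g t ↔ ¬ Function.Surjective (combMap t) := by
      intro t
      have htot : Nat.card (combMap t).toAddMonoidHom.range *
          Nat.card (U.comap (combMap t)) = c ^ r := by
        rw [show Nat.card (U.comap (combMap t)) = Nat.card (combMap t).toAddMonoidHom.ker from
          Nat.card_congr (Equiv.subtypeEquivRight fun a => by rw [hU0]; rfl),
          ← AddSubgroup.index_ker, mul_comm, AddSubgroup.card_mul_index, Nat.card_fun,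
          Nat.card_eq_fintype_card, Nat.card_eq_fintype_card]
      have hV : Nat.card (Fin 2 → k) = c ^ 2 := by
        rw [Nat.card_fun, Nat.card_fin, Nat.card_eq_fintype_card]
      unfold NonSpanning
      rw [hK, hF, ← hc, ← hr, ← htot, Nat.mul_lt_mul_right Nat.card_pos, ← hV]
      refine ⟨fun hlt hs => hlt.ne ?_, fun hns =>
        (AddSubgroup.card_le_card_addGroup _).lt_of_ne fun heq => hns fun v => ?_⟩
      · rw [AddMonoidHom.range_eq_top.mpr hs]
        exact Nat.card_congr AddSubgroup.topEquiv.toEquiv
      · exact (AddSubgroup.eq_top_of_card_eq _ heq ▸ AddSubgroup.mem_top v :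
          v ∈ (combMap t).toAddMonoidHom.range)
    have e : (Nat.card {t : ι → Fin 2 → k // ¬ Function.Surjective (combMap t)} : ℝ) =
        Nat.card (ι → Fin 2 → k) -
          Nat.card {t : ι → Fin 2 → k // Function.Surjective (combMap t)} := by
      rw [eq_sub_iff_add_eq', ← Nat.cast_add, ← Nat.card_sum]
      exact congrArg Nat.cast (Nat.card_congr (Equiv.sumCompl _))
    rw [Nat.card_congr (Equiv.subtypeEquivRight hns), e, card_spanning, Nat.card_fun, Nat.card_fun,
      Nat.card_fin, Nat.card_eq_fintype_card, Nat.card_eq_fintype_card, ← hc, ← hr, Nat.cast_pow,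
      Nat.cast_pow, ← pow_mul, ← pow_mul, mul_comm]
  · have hUc : Nat.card U = c := natCard_range_of_singular
      (sub_ne_zero.mpr fun h => h1 (Units.ext h)) (by rw [hdet, h2, sub_self])
    have hF : Nat.card {v : Fin 2 → k // g.val *ᵥ v = v} = c :=
      Nat.eq_of_mul_eq_mul_right (Fintype.card_pos (α := k)) (by rw [← hc, ← sq, ← hfix, hUc])
    have hns : ∀ t : ι → Fin 2 → k, NonSpanning g t ↔ ∀ i, t i ∈ U := by
      intro t
      have hall : (∀ i, t i ∈ U) ↔ U.comap (combMap t) = ⊤ := by
        refine ⟨fun h => eq_top_iff.mpr fun a _ => ?_, fun h i => ?_⟩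
        · rw [Submodule.mem_comap, combMap, Fintype.linearCombination_apply]
          exact U.sum_mem fun i _ => U.smul_mem _ (h i)
        · have : Pi.single i 1 ∈ U.comap (combMap t) := h ▸ Submodule.mem_top
          simpa [combMap, Fintype.linearCombination_apply_single] using this
      unfold NonSpanning
      rw [hall, hK, hF, ← hc, ← hr]
      constructor
      · intro hlt
        by_contra hne
        have hd := Submodule.finrank_lt hne
        rw [Module.finrank_fintype_fun_eq_card, ← hr] at hd
        have hcard := Module.natCard_eq_pow_finrank (K := k) (V := U.comap (combMap t))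
        rw [Nat.card_eq_fintype_card (α := k), ← hc] at hcard
        rw [hcard, ← pow_succ'] at hlt
        exact hlt.not_ge (Nat.pow_le_pow_right Fintype.card_pos hd)
      · intro htop
        rw [htop, Nat.card_congr Submodule.topEquiv.toEquiv, Nat.card_fun,
          Nat.card_eq_fintype_card, Nat.card_eq_fintype_card, ← hc, ← hr]
        exact (lt_mul_iff_one_lt_left (pow_pos Fintype.card_pos _)).mpr Fintype.one_lt_card
    rw [Nat.card_congr (Equiv.subtypeEquivRight hns),
      Nat.card_congr (Equiv.subtypePiEquivPi (p := fun (_ : ι) (v : Fin 2 → k) => v ∈ U)),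
      Nat.card_fun, show Nat.card {b : Fin 2 → k // b ∈ U} = c from hUc,
      Nat.card_eq_fintype_card, Nat.cast_pow]
  · haveI : IsEmpty {t : ι → Fin 2 → k // NonSpanning g t} := ⟨fun t => t.2.not_ge (by
      have hu : IsUnit (g.val - 1) := by
        rw [Matrix.isUnit_iff_isUnit_det, hdet, isUnit_iff_ne_zero, sub_ne_zero]
        exact fun h => h2 h.symm
      have hUt : Nat.card U = c ^ 2 := by
        rw [hU, LinearMap.range_eq_top.mpr (mulVec_surjective_iff_isUnit.mpr hu),
          Nat.card_congr Submodule.topEquiv.toEquiv, Nat.card_fun, Nat.card_fin,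
          Nat.card_eq_fintype_card]
      have hF : Nat.card {v : Fin 2 → k // g.val *ᵥ v = v} = 1 :=
        Nat.eq_of_mul_eq_mul_right (pow_pos (Fintype.card_pos (α := k)) 2)
          (by rw [← hc, one_mul]; conv_rhs => rw [← hfix, hUt])
      rw [hF, one_mul]
      refine (Finite.card_subtype_le _).trans ?_
      rw [Nat.card_fun, Nat.card_eq_fintype_card, Nat.card_eq_fintype_card])⟩
    rw [Nat.card_of_isEmpty, Nat.cast_zero]

/-- **The number of pairs not spanning.** -/
theorem card_nonSpanning :
    (Nat.card {a : GL (Fin 2) k × (ι → Fin 2 → k) // NonSpanning a.1 a.2} : ℝ) =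
      ((Fintype.card k : ℝ) ^ Fintype.card ι) ^ 2 -
          ((Fintype.card k : ℝ) ^ Fintype.card ι - 1) *
            ((Fintype.card k : ℝ) ^ Fintype.card ι - Fintype.card k) +
        ((Fintype.card k : ℝ) ^ 3 - 2 * Fintype.card k - 1) *
          (Fintype.card k : ℝ) ^ Fintype.card ι := by
  have e : {a : GL (Fin 2) k × (ι → Fin 2 → k) // NonSpanning a.1 a.2} ≃
      Σ g : GL (Fin 2) k, {t : ι → Fin 2 → k // NonSpanning g t} :=
    { toFun := fun a => ⟨a.1.1, a.1.2, a.2⟩
      invFun := fun s => ⟨(s.1, s.2.1), s.2.2⟩
      left_inv := fun _ => rfl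
      right_inv := fun _ => rfl }
  rw [Nat.card_congr e, Nat.card_sigma, Nat.cast_sum,
    Finset.sum_congr rfl fun g _ => card_nonSpanning_fibre g, sum_strata_gl2]
  ring

/-- The proportion of the elements obstructing generation by `r` points at `p`. -/
def obstructDensity (p r : ℕ) : ℝ :=
  (((p : ℝ) ^ r) ^ 2 - ((p : ℝ) ^ r - 1) * ((p : ℝ) ^ r - p) +
      ((p : ℝ) ^ 3 - 2 * p - 1) * (p : ℝ) ^ r) /
    (((p : ℝ) ^ 2 - 1) * ((p : ℝ) ^ 2 - p) * ((p : ℝ) ^ r) ^ 2)

/-- For one point. -/
theorem obstructDensity_one {p : ℕ} (hp : 2 ≤ p) : obstructDensity p 1 =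
    (((p : ℝ) ^ 3 - 2 * p - 1) / p + 1) / (((p : ℝ) ^ 2 - 1) * ((p : ℝ) ^ 2 - p)) := by
  have h2 : (2 : ℝ) ≤ p := by exact_mod_cast hp
  have a1 : (p : ℝ) ^ 2 - 1 ≠ 0 := by nlinarith
  have a2 : (p : ℝ) ^ 2 - p ≠ 0 := by nlinarith
  have a3 : (p : ℝ) ≠ 0 := by linarith
  rw [obstructDensity, pow_one]
  field_simp
  ring

end FA.PrimitivePoint

end
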