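import Fermat.Agent.BashmakovDensity.Family
import Fermat.Agent.PrimitivePoint.Count

/-!
# The proportion of obstructing elements on the fibres at one prime

When Galois acts on the torsion and the fibres of multiplication by `p` over the points through the
whole affine group, the elements obstructing generation are in the proportion `obstructDensity`.
-/

set_option autoImplicit false
set_option linter.style.haveILetI false
set_option linter.unusedSectionVars false

noncomputable section

open Matrix WeierstrassCurve FA.Frob FA.EC FA.RT FA.PointDiv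
open FA.RT.Tate (Pts)
open scoped WeierstrassCurve.Affine Classical

local notation "Qb" => AlgebraicClosure ℚ
local notation "GQ" => AlgebraicClosure ℚ ≃ₐ[ℚ] AlgebraicClosure ℚ

namespace FA.PrimitivePoint

variable {W : WeierstrassCurve ℤ} [(ratCurve W).IsElliptic] {ι : Type} [Fintype ι]

/-- The action on the torsion and the fibres over the points. -/
def fibFamily (p : ℕ) (P : ι → (ratCurve W).toAffine.Point) :
    GQ →* ∀ o : Option ι, Equiv.Perm (Fib W p (o.elim 0 P)) :=
  MonoidHom.pi fun o => fibHom W p (o.elim 0 P)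

/-- `σ` obstructs generation at `p`: its fixed torsion and the combinations with a fixed `p`-th part
are too many. -/
def Obstructs (p : ℕ) (P : ι → (ratCurve W).toAffine.Point) (σ : GQ) : Prop :=
  p ^ Fintype.card ι < Nat.card {T : Pts W // p • T = 0 ∧ σ • T = T} *
    Nat.card {a : ι → ZMod p // ∃ Q : Pts W, p • Q = up W (∑ i, (a i).val • P i) ∧ σ • Q = Q}

variable {p : ℕ} {P : ι → (ratCurve W).toAffine.Point}

/-- The action on the torsion is part of the action on the fibres. -/
theorem smul_torsion_of_eq {σ τ : GQ} (h : fibFamily p P σ = fibFamily p P τ) {T : Pts W}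
    (hT : p • T = 0) : σ • T = τ • T :=
  congrArg Subtype.val (Equiv.ext_iff.mp (congrFun h none)
    ⟨T, hT.trans (map_zero (up W)).symm⟩)

/-- Two elements alike on the fibres act alike on the parts of all combinations. -/
theorem smul_eq_of_eq [hp : Fact p.Prime] {σ τ : GQ} (h : fibFamily p P σ = fibFamily p P τ)
    (a : ι → ℕ) {Q : Pts W} (hQ : p • Q = up W (∑ i, a i • P i)) : σ • Q = τ • Q := by
  choose Q₀ hQ₀ using fun i => exists_div W hp.out.ne_zero (up W (P i))
  have hi : ∀ i, σ • Q₀ i = τ • Q₀ i := fun i =>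
    congrArg Subtype.val (Equiv.ext_iff.mp (congrFun h (some i)) ⟨Q₀ i, hQ₀ i⟩)
  have hd : p • (Q - ∑ i, a i • Q₀ i) = 0 := by
    rw [nsmul_sub, hQ, map_sum, Finset.smul_sum, sub_eq_zero]
    exact Finset.sum_congr rfl fun i _ => by rw [map_nsmul, smul_comm, hQ₀]
  have hsum : ∀ ρ : GQ, ρ • (∑ i, a i • Q₀ i) = ∑ i, a i • (ρ • Q₀ i) := fun ρ => by
    show FA.Bashmakov.pointAct (ratCurve W) ρ _ = _
    rw [map_sum]
    exact Finset.sum_congr rfl fun i _ => map_nsmul _ _ _
  have e := smul_torsion_of_eq h hd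
  rw [FA.Local.gal_smul_sub (ratCurve W) σ, FA.Local.gal_smul_sub (ratCurve W) τ, hsum, hsum,
    Finset.sum_congr rfl fun i _ => congrArg (a i • ·) (hi i)] at e
  exact sub_left_injective e

/-- Obstructing depends only on the action on the fibres. -/
theorem obstructs_congr [Fact p.Prime] {σ τ : GQ} (h : fibFamily p P σ = fibFamily p P τ) :
    Obstructs p P σ ↔ Obstructs p P τ := by
  have e1 : Nat.card {T : Pts W // p • T = 0 ∧ σ • T = T} =
      Nat.card {T : Pts W // p • T = 0 ∧ τ • T = T} :=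
    Nat.card_congr (Equiv.subtypeEquivRight fun T => and_congr_right fun hT => by
      rw [smul_torsion_of_eq h hT])
  have e2 : Nat.card {a : ι → ZMod p //
        ∃ Q : Pts W, p • Q = up W (∑ i, (a i).val • P i) ∧ σ • Q = Q} =
      Nat.card {a : ι → ZMod p //
        ∃ Q : Pts W, p • Q = up W (∑ i, (a i).val • P i) ∧ τ • Q = Q} :=
    Nat.card_congr (Equiv.subtypeEquivRight fun a => exists_congr fun Q => and_congr_right
      fun hQ => by rw [smul_eq_of_eq h _ hQ])
  rw [Obstructs, Obstructs, e1, e2]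

/-- It is invariant under conjugation. -/
theorem obstructs_conj (σ τ : GQ) : Obstructs p P (τ * σ * τ⁻¹) ↔ Obstructs p P σ := by
  have hfix : ∀ Q : Pts W, (τ * σ * τ⁻¹) • Q = Q ↔ σ • (τ⁻¹ • Q) = τ⁻¹ • Q := fun Q => by
    rw [mul_smul, mul_smul]
    constructor
    · intro e
      conv_rhs => rw [← e, inv_smul_smul]
    · intro e
      rw [e, smul_inv_smul]
  have e1 : Nat.card {T : Pts W // p • T = 0 ∧ (τ * σ * τ⁻¹) • T = T} =
      Nat.card {T : Pts W // p • T = 0 ∧ σ • T = T} :=
    Nat.card_congr ((MulAction.toPerm τ⁻¹ : Equiv.Perm (Pts W)).subtypeEquiv fun T => by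
      refine and_congr ⟨fun hT => ?_, fun hT => ?_⟩ (hfix T)
      · show p • (τ⁻¹ • T) = 0
        rw [← smul_nat, hT]
        exact FA.Local.gal_smul_zero (ratCurve W) τ⁻¹
      · change p • (τ⁻¹ • T) = 0 at hT
        rw [← smul_nat] at hT
        have e := congrArg (τ • ·) hT
        rw [smul_inv_smul] at e
        exact e.trans (FA.Local.gal_smul_zero (ratCurve W) τ))
  have e2 : Nat.card {a : ι → ZMod p //
        ∃ Q : Pts W, p • Q = up W (∑ i, (a i).val • P i) ∧ (τ * σ * τ⁻¹) • Q = Q} =
      Nat.card {a : ι → ZMod p //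
        ∃ Q : Pts W, p • Q = up W (∑ i, (a i).val • P i) ∧ σ • Q = Q} :=
    Nat.card_congr (Equiv.subtypeEquivRight fun a => by
      constructor
      · rintro ⟨Q, hQ, hσ⟩
        exact ⟨τ⁻¹ • Q, by rw [← smul_nat, hQ, smul_up], (hfix Q).mp hσ⟩
      · rintro ⟨Q, hQ, hσ⟩
        exact ⟨τ • Q, by rw [← smul_nat, hQ, smul_up], (hfix _).mpr (by rw [inv_smul_smul, hσ])⟩)
  rw [Obstructs, Obstructs, e1, e2]

/-- **The obstructing proportion.** -/
theorem card_unobstructed_range [hp : Fact p.Prime]
    (hA : FA.BashmakovDensity.AffineImageFamily W p P) :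
    (Nat.card {g : (fibFamily p P).range // ∀ σ, fibFamily p P σ = g.1 → ¬ Obstructs p P σ} : ℝ) /
      Nat.card (fibFamily p P).range = 1 - obstructDensity p (Fintype.card ι) := by
  set f := fibFamily p P with hf
  choose Q₀ hQ₀ using fun i => exists_div W hp.out.ne_zero (up W (P i))
  set e := (torsBasis (p := p) W).equivFun.toAddEquiv with he
  have hT : ∀ {y : Pts W},
      y ∈ Submodule.torsionBy ℤ ((ratCurve W)⁄Qb).Point (p : ℤ) ↔ p • y = 0 := fun {y} => by
    rw [Submodule.mem_torsionBy_iff, natCast_zsmul]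
  have hd : ∀ (σ : GQ) i,
      σ • Q₀ i - Q₀ i ∈ Submodule.torsionBy ℤ ((ratCurve W)⁄Qb).Point (p : ℤ) := fun σ i => by
    rw [hT, nsmul_sub, ← smul_nat, hQ₀, smul_up, sub_self]
  have hdet : ∀ σ, (curveRep p W σ).det ≠ 0 := fun σ h0 => by
    have h : (curveRep p W σ * curveRep p W σ⁻¹).det = 1 := by
      rw [← map_mul, mul_inv_cancel, map_one, det_one]
    rw [det_mul, h0, zero_mul] at h
    exact zero_ne_one h
  let Φ : GQ → GL (Fin 2) (ZMod p) × (ι → Fin 2 → ZMod p) := fun σ =>
    (Matrix.GeneralLinearGroup.mkOfDetNeZero _ (hdet σ), fun i => e ⟨σ • Q₀ i - Q₀ i, hd σ i⟩)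
  have hmul : ∀ (σ : GQ) (v : Fin 2 → ZMod p),
      (Φ σ).1.val *ᵥ v = e (σ • e.symm v) := fun σ v => by
    show curveRep p W σ *ᵥ v = _
    conv_lhs => rw [← e.apply_symm_apply v]
    exact toMatrix_mulVec _ _
  -- the coordinates are those of the action on the fibres
  have hfΦ : ∀ σ τ, f σ = f τ ↔ Φ σ = Φ τ := fun σ τ => by
    constructor
    · intro h
      refine Prod.ext (Units.ext (Matrix.ext fun k l => ?_)) (funext fun i => congrArg e
        (Subtype.ext (congrArg (· - Q₀ i) (congrArg Subtype.val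
          (Equiv.ext_iff.mp (congrFun h (some i)) ⟨Q₀ i, hQ₀ i⟩)))))
      have h1 : (Φ σ).1.val *ᵥ Pi.single l 1 = (Φ τ).1.val *ᵥ Pi.single l 1 := by
        rw [hmul, hmul]
        exact congrArg e (Subtype.ext (smul_torsion_of_eq h (hT.mp (e.symm _).2)))
      simpa [mulVec_single_one] using congrFun h1 k
    · intro h
      have htor : ∀ T : Pts W, p • T = 0 → σ • T = τ • T := fun T hT' => by
        have h1 := hmul σ (e ⟨T, hT.mpr hT'⟩)
        rw [h, hmul, AddEquiv.symm_apply_apply] at h1
        exact (congrArg Subtype.val (e.injective h1)).symm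
      refine funext fun o => Equiv.ext fun Q => Subtype.ext ?_
      show σ • Q.1 = τ • Q.1
      cases o with
      | none => exact htor Q.1 (Q.2.trans (map_zero (up W)))
      | some i =>
        have h1 := htor (Q.1 - Q₀ i) (by rw [nsmul_sub, Q.2, hQ₀]; exact sub_self _)
        have h2 : σ • Q₀ i = τ • Q₀ i :=
          sub_left_injective (congrArg Subtype.val (e.injective (congrFun (Prod.ext_iff.mp h).2 i)))
        rw [FA.Local.gal_smul_sub (ratCurve W) σ, FA.Local.gal_smul_sub (ratCurve W) τ, h2] at h1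
        exact sub_left_injective h1
  have hsurj : Function.Surjective Φ := by
    rintro ⟨M, t⟩
    let u : (Fin 2 → ZMod p) ≃+ (Fin 2 → ZMod p) :=
      { toFun := fun v => M.val *ᵥ v
        invFun := fun v => (M⁻¹).val *ᵥ v
        left_inv := fun v => by
          show (M⁻¹).val *ᵥ (M.val *ᵥ v) = v
          rw [mulVec_mulVec, ← Units.val_mul, inv_mul_cancel, Units.val_one, one_mulVec]
        right_inv := fun v => by
          show M.val *ᵥ ((M⁻¹).val *ᵥ v) = v
          rw [mulVec_mulVec, ← Units.val_mul, mul_inv_cancel, Units.val_one, one_mulVec]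
        map_add' := fun v w => mulVec_add _ v w }
    obtain ⟨σ, hσ, hσQ⟩ :=
      hA (fun i => ⟨Q₀ i, hQ₀ i⟩) ((e.trans u).trans e.symm) (fun i => e.symm (t i))
    refine ⟨σ, Prod.ext (Units.ext (Matrix.ext fun k l => ?_)) (funext fun i => ?_)⟩
    · have h1 : (Φ σ).1.val *ᵥ Pi.single l 1 = M.val *ᵥ Pi.single l 1 := by
        rw [hmul, show σ • e.symm (Pi.single l 1) = e.symm (u (Pi.single l 1)) from
          Subtype.ext ((hσ _).trans (by simp)), AddEquiv.apply_symm_apply]
        rfl
      simpa [mulVec_single_one] using congrFun h1 k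
    · refine e.symm.injective (Subtype.ext ?_)
      show (e.symm (e _)).1 = _
      rw [AddEquiv.symm_apply_apply]
      show σ • Q₀ i - Q₀ i = _
      rw [show σ • Q₀ i = Q₀ i + (e.symm (t i)).1 from hσQ i, add_sub_cancel_left]
  -- obstructing in coordinates
  have hobs : ∀ σ, Obstructs p P σ ↔ NonSpanning (Φ σ).1 (Φ σ).2 := fun σ => by
    have e1 : Nat.card {T : Pts W // p • T = 0 ∧ σ • T = T} =
        Nat.card {v : Fin 2 → ZMod p // (Φ σ).1.val *ᵥ v = v} := by
      refine Nat.card_congr
        { toFun := fun T => ⟨e ⟨T.1, hT.mpr T.2.1⟩, ?_⟩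
          invFun := fun v => ⟨(e.symm v.1).1, hT.mp (e.symm v.1).2, ?_⟩
          left_inv := fun T => Subtype.ext (by simp)
          right_inv := fun v => Subtype.ext (by simp) }
      · rw [hmul, AddEquiv.symm_apply_apply]
        exact congrArg e (Subtype.ext T.2.2)
      · have h1 := congrArg e.symm v.2
        rw [hmul, AddEquiv.symm_apply_apply] at h1
        exact congrArg Subtype.val h1
    have e2 : Nat.card {a : ι → ZMod p //
        ∃ Q : Pts W, p • Q = up W (∑ i, (a i).val • P i) ∧ σ • Q = Q} =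
      Nat.card {a : ι → ZMod p //
        ∃ v, (Φ σ).1.val *ᵥ v + ∑ i, a i • (Φ σ).2 i = v} := by
      refine Nat.card_congr (Equiv.subtypeEquivRight fun a => ?_)
      have hb : p • (∑ i, (a i).val • Q₀ i) = up W (∑ i, (a i).val • P i) := by
        rw [map_sum, Finset.smul_sum]
        exact Finset.sum_congr rfl fun i _ => by rw [map_nsmul, smul_comm, hQ₀]
      have key : ∀ (v : Fin 2 → ZMod p),
          σ • ((∑ i, (a i).val • Q₀ i) + (e.symm v).1) =
            (∑ i, (a i).val • Q₀ i) +
              (e.symm ((Φ σ).1.val *ᵥ v + ∑ i, a i • (Φ σ).2 i)).1 := fun v => by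
        have hs : ∀ (z : ZMod p) (w : Fin 2 → ZMod p), z • w = z.val • w := fun z w => by
          rw [← Nat.cast_smul_eq_nsmul (ZMod p), ZMod.natCast_zmod_val]
        rw [hmul, map_add, AddEquiv.symm_apply_apply, map_sum, Submodule.coe_add, Submodule.coe_sum]
        simp only [hs, map_nsmul, AddSubmonoidClass.coe_nsmul]
        simp only [Φ, AddEquiv.symm_apply_apply, nsmul_sub, Finset.sum_sub_distrib]
        rw [FA.Local.gal_smul_add (ratCurve W) σ,
          show σ • (∑ i, (a i).val • Q₀ i) = ∑ i, (a i).val • (σ • Q₀ i) by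
            show FA.Bashmakov.pointAct (ratCurve W) σ _ = _
            rw [map_sum]
            exact Finset.sum_congr rfl fun i _ => map_nsmul _ _ _]
        show _ + σ • (e.symm v).1 = _ + (σ • (e.symm v).1 + _)
        abel
      constructor
      · rintro ⟨Q, hQ, hσQ⟩
        have hm : Q - ∑ i, (a i).val • Q₀ i ∈
            Submodule.torsionBy ℤ ((ratCurve W)⁄Qb).Point (p : ℤ) := by
          rw [hT, nsmul_sub, hb, hQ, sub_self]
        refine ⟨e ⟨_, hm⟩, e.symm.injective (Subtype.ext (add_left_cancel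
          (a := ∑ i, (a i).val • Q₀ i) ((key _).symm.trans ?_)))⟩
        rw [AddEquiv.symm_apply_apply]
        show σ • (_ + (Q - _)) = _ + (Q - _)
        rw [add_sub_cancel, hσQ]
      · rintro ⟨v, hv⟩
        refine ⟨_, ?_, (key v).trans (by rw [hv])⟩
        rw [nsmul_add, hb, hT.mp (e.symm v).2, add_zero]
    rw [Obstructs, NonSpanning, e1, e2, ZMod.card]
  let E : f.range ≃ GL (Fin 2) (ZMod p) × (ι → Fin 2 → ZMod p) :=
    Equiv.ofBijective (fun g => Φ g.2.choose)
      ⟨fun g g' hgg => Subtype.ext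
          (g.2.choose_spec.symm.trans (((hfΦ _ _).mpr hgg).trans g'.2.choose_spec)),
        fun a => by
          obtain ⟨σ, rfl⟩ := hsurj a
          exact ⟨⟨f σ, σ, rfl⟩,
            (hfΦ _ _).mp (Exists.choose_spec (p := fun τ => f τ = f σ) ⟨σ, rfl⟩)⟩⟩
  have E' : {g : f.range // ∀ σ, f σ = g.1 → ¬ Obstructs p P σ} ≃
      {a : GL (Fin 2) (ZMod p) × (ι → Fin 2 → ZMod p) // ¬ NonSpanning a.1 a.2} :=
    E.subtypeEquiv fun g => by
      refine ⟨fun h => ?_, fun h σ hσ => ?_⟩
      · exact fun hns => h g.2.choose g.2.choose_spec ((hobs _).mpr hns)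
      · rw [obstructs_congr (hσ.trans g.2.choose_spec.symm), hobs]
        exact h
  have ec : (Nat.card {a : GL (Fin 2) (ZMod p) × (ι → Fin 2 → ZMod p) // ¬ NonSpanning a.1 a.2}
      : ℝ) = Nat.card (GL (Fin 2) (ZMod p) × (ι → Fin 2 → ZMod p)) -
        Nat.card {a : GL (Fin 2) (ZMod p) × (ι → Fin 2 → ZMod p) // NonSpanning a.1 a.2} := by
    rw [eq_sub_iff_add_eq', ← Nat.cast_add, ← Nat.card_sum]
    exact congrArg Nat.cast (Nat.card_congr (Equiv.sumCompl _))
  rw [Nat.card_congr E', Nat.card_congr E, ec, sub_div,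
    div_self (Nat.cast_ne_zero.mpr Nat.card_pos.ne'), card_nonSpanning, Nat.card_prod,
    FA.TraceDist.card_gl2, Nat.card_fun, Nat.card_fun, Nat.card_fin, Nat.card_zmod, ZMod.card,
    Nat.card_eq_fintype_card (α := ι), obstructDensity, Nat.cast_mul, Nat.cast_mul,
    Nat.cast_sub (Nat.one_le_pow _ _ hp.out.pos), Nat.cast_sub (Nat.le_self_pow two_ne_zero p)]
  push_cast
  ring

end FA.PrimitivePoint

end
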