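import Mathlib.GroupTheory.Index
import Mathlib.GroupTheory.Perm.Cycle.Type
import Mathlib.Data.ZMod.QuotientGroup
import Mathlib.Algebra.Module.ZMod
import Mathlib.Tactic

/-!
# When `p` divides the index of a finitely generated subgroup

In a finite abelian group `G` the index of the subgroup generated by `r` elements `P i` is divisible
by `p` exactly when their classes do not span `G / p G`, that is when `pʳ` is less than the number
of points killed by `p` times the number of combinations modulo `p` which are multiples of `p`.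
-/

set_option autoImplicit false
set_option linter.style.haveILetI false

noncomputable section

namespace FA.PrimitivePoint

variable {G : Type*} [AddCommGroup G] [Finite G] {p : ℕ} [hp : Fact p.Prime]

/-- `p` divides the index of `H` exactly when `H` and the multiples of `p` do not give
everything. -/
theorem dvd_index_iff_sup_ne_top (H : AddSubgroup G) :
    p ∣ H.index ↔ (nsmulAddMonoidHom (α := G) p).range ⊔ H ≠ ⊤ := by
  set f := nsmulAddMonoidHom (α := G) p
  constructor
  · intro hd htop
    haveI := Fintype.ofFinite (G ⧸ H)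
    obtain ⟨y, hy⟩ := exists_prime_addOrderOf_dvd_card' (G := G ⧸ H) p hd
    have hsurj : Function.Surjective fun z : G ⧸ H => p • z := fun z => by
      obtain ⟨a, rfl⟩ := QuotientAddGroup.mk_surjective z
      obtain ⟨b, ⟨c, rfl⟩, d, hd', rfl⟩ :=
        AddSubgroup.mem_sup.mp (htop.ge (AddSubgroup.mem_top a))
      refine ⟨c, ?_⟩
      show p • (c : G ⧸ H) = ((f c + d : G) : G ⧸ H)
      rw [QuotientAddGroup.mk_add, (QuotientAddGroup.eq_zero_iff d).mpr hd', add_zero]
      exact (QuotientAddGroup.mk_nsmul H c p).symm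
    have h0 : y = 0 := (Finite.injective_iff_surjective.mpr hsurj) (by
      show p • y = p • (0 : G ⧸ H)
      rw [nsmul_zero, ← hy, addOrderOf_nsmul_eq_zero])
    rw [h0, addOrderOf_zero] at hy
    exact hp.out.one_lt.ne hy
  · refine fun hne => by_contra fun hd => hne (eq_top_iff.mpr fun x _ => ?_)
    obtain ⟨s, t, hst⟩ := Int.isCoprime_iff_nat_coprime.mpr
      (show (p : ℤ).natAbs.Coprime (H.index : ℤ).natAbs by
        simpa using hp.out.coprime_iff_not_dvd.mpr hd)
    have e : x = s • (p • x) + t • (H.index • x) := by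
      rw [← natCast_zsmul x p, ← natCast_zsmul x H.index, smul_smul, smul_smul, ← add_zsmul, hst,
        one_zsmul]
    rw [e]
    exact AddSubgroup.add_mem_sup (f.range.zsmul_mem ⟨x, rfl⟩ s)
      (H.zsmul_mem (H.nsmul_index_mem x) t)

/-- **`p` divides the index of the subgroup generated by the `P i`.** -/
theorem dvd_index_closure_iff {ι : Type*} [Fintype ι] (P : ι → G) :
    p ∣ (AddSubgroup.closure (Set.range P)).index ↔
      p ^ Fintype.card ι < Nat.card {R : G // p • R = 0} *
        Nat.card {a : ι → ZMod p // ∃ R, p • R = ∑ i, (a i).val • P i} := by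
  classical
  rw [dvd_index_iff_sup_ne_top]
  set f := nsmulAddMonoidHom (α := G) p with hf
  set H := AddSubgroup.closure (Set.range P)
  let mk : G →+ G ⧸ f.range := QuotientAddGroup.mk' f.range
  have hmk : ∀ x, mk x = 0 ↔ ∃ R, p • R = x := fun x => QuotientAddGroup.eq_zero_iff x
  have hp0 : ∀ x, p • mk x = 0 := fun x => by rw [← map_nsmul]; exact (hmk _).mpr ⟨x, rfl⟩
  let L : (ι → ZMod p) →+ G ⧸ f.range := ∑ i, (ZMod.lift p ⟨zmultiplesHom _ (mk (P i)), by
    rw [zmultiplesHom_apply, natCast_zsmul, hp0]⟩).comp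
      (Pi.evalAddMonoidHom (fun _ : ι => ZMod p) i)
  have hL : ∀ a, L a = mk (∑ i, (a i).val • P i) := fun a => by
    simp only [L, AddMonoidHom.finsetSum_apply, AddMonoidHom.coe_comp, Function.comp_apply,
      Pi.evalAddMonoidHom_apply, map_sum, map_nsmul]
    refine Finset.sum_congr rfl fun i _ => ?_
    have e := ZMod.lift_coe p ⟨zmultiplesHom _ (mk (P i)), by
      rw [zmultiplesHom_apply, natCast_zsmul, hp0]⟩ ((a i).val : ℤ)
    rw [Int.cast_natCast, ZMod.natCast_zmod_val] at e
    rw [e]
    show ((a i).val : ℤ) • mk (P i) = _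
    exact natCast_zsmul _ _
  have hker : Nat.card L.ker =
      Nat.card {a : ι → ZMod p // ∃ R, p • R = ∑ i, (a i).val • P i} :=
    Nat.card_congr (Equiv.subtypeEquivRight fun a => by
      rw [AddMonoidHom.mem_ker, hL, hmk])
  have hC : Nat.card {R : G // p • R = 0} = Nat.card (G ⧸ f.range) := by
    show _ = f.range.index
    rw [AddSubgroup.index_range]
    exact Nat.card_congr (Equiv.subtypeEquivRight fun _ => Iff.rfl)
  have htot : Nat.card L.range * Nat.card L.ker = p ^ Fintype.card ι := by
    rw [← AddSubgroup.index_ker, mul_comm, AddSubgroup.card_mul_index, Nat.card_fun, Nat.card_zmod,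
      Nat.card_eq_fintype_card]
  rw [hC, ← hker, ← htot, Nat.mul_lt_mul_right Nat.card_pos]
  have hle := AddSubgroup.card_le_card_addGroup L.range
  refine ⟨fun hne => hle.lt_of_ne fun heq => hne ?_, fun hlt htop => hlt.not_ge ?_⟩
  · refine eq_top_iff.mpr fun x _ => ?_
    obtain ⟨a, ha⟩ : mk x ∈ L.range := AddSubgroup.eq_top_of_card_eq _ heq ▸ AddSubgroup.mem_top _
    rw [hL] at ha
    have hS : ∑ i, (a i).val • P i ∈ H := H.sum_mem fun i _ =>
      H.nsmul_mem (AddSubgroup.subset_closure (Set.mem_range_self i)) _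
    have hR : x - ∑ i, (a i).val • P i ∈ f.range :=
      (QuotientAddGroup.eq_zero_iff _).mp (show mk _ = 0 by rw [map_sub, ha, sub_self])
    simpa using AddSubgroup.add_mem_sup hR hS
  · refine Nat.card_le_card_of_injective (fun z => (⟨z, ?_⟩ : L.range)) fun z z' e =>
      congrArg Subtype.val e
    obtain ⟨x, rfl⟩ := QuotientAddGroup.mk'_surjective f.range z
    obtain ⟨b, hb, d, hd', rfl⟩ := AddSubgroup.mem_sup.mp (htop.ge (AddSubgroup.mem_top x))
    have hH : H ≤ L.range.comap mk := (AddSubgroup.closure_le _).mpr (by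
      rintro _ ⟨i, rfl⟩
      refine ⟨Pi.single i 1, ?_⟩
      rw [hL, Finset.sum_eq_single i (fun j _ hne => by simp [Pi.single_eq_of_ne hne])
        (fun h => absurd (Finset.mem_univ i) h), Pi.single_eq_same, ZMod.val_one, one_nsmul])
    show mk (b + d) ∈ L.range
    rw [map_add, show mk b = 0 from (QuotientAddGroup.eq_zero_iff b).mpr hb, zero_add]
    exact hH hd'

end FA.PrimitivePoint

end
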