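import Fermat.Agent.PrimitivePoint.Kummer
import Fermat.Agent.PrimitivePoint.Group
import Fermat.Agent.PrimitivePoint.Fibre
import Fermat.Agent.OrderDensity.Lift
import Fermat.Agent.ReducedGroups.Basic

/-!
# The primes at which points fail to generate at given primes

For finitely many odd primes with joint full image and points independent modulo each of them the
Galois group of the fibres over the points is the product of the affine groups, and the index of the
subgroup the points generate in `E(𝔽_q)` is divisible by `p` exactly when Frobenius obstructs at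
`p`.
-/

set_option autoImplicit false
set_option linter.style.haveILetI false
set_option linter.unusedSectionVars false

noncomputable section

open WeierstrassCurve NumberField IsDedekindDomain FA.Frob FA.EC FA.PointDiv FA.Bashmakov
open FA.RT.Tate (Pts)
open scoped WeierstrassCurve.Affine Classical

local notation "Qb" => AlgebraicClosure ℚ
local notation "GQ" => AlgebraicClosure ℚ ≃ₐ[ℚ] AlgebraicClosure ℚ

namespace FA.PrimitivePoint

variable {W : WeierstrassCurve ℤ} [(ratCurve W).IsElliptic] {ι : Type} [Fintype ι]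

/-- **The index and Frobenius**: at a good prime `q ≠ p`. -/
theorem dvd_index_iff_obstructs {p : ℕ} [hp : Fact p.Prime] {x y : ι → ℚ}
    (h : ∀ i, (ratCurve W).toAffine.Nonsingular (x i) (y i)) {q : ℕ} [hq : Fact q.Prime]
    (hgood : W.IsGoodPrimeFor q) (hqp : q ≠ p) (hx : ∀ i, ¬ q ∣ (x i).den)
    (hy : ∀ i, ¬ q ∣ (y i).den)
    (h' : ∀ i, (W.map (Int.castRingHom (ZMod q))).toAffine.Nonsingular (x i : ZMod q) (y i))
    {A : ValuationSubring Qb} (hA : A.LiesOverPrime q) {σ : GQ} (hσ : A.IsFrobeniusAt σ q) :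
    p ∣ (AddSubgroup.closure (Set.range fun i =>
        Affine.Point.some (x i : ZMod q) (y i : ZMod q) (h' i))).index ↔
      Obstructs p (fun i => Affine.Point.some (x i) (y i) (h i)) σ := by
  haveI := reductionMod_isElliptic W hgood
  haveI : CharP (Res A) q := residueField_charP A hq.out hA
  haveI := redCurve_isElliptic (intCoeff_ratCurve W A) (valuation_Δ_ratCurve W hq.out hA hgood)
  have hred : ∀ i, redHom (intCoeff_ratCurve W A) (valuation_Δ_ratCurve W hq.out hA hgood)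
      (up W (Affine.Point.some (x i) (y i) (h i))) =
        mapHom (ZMod.castHom (dvd_refl q) (Res A)) (map_castHom W (A := A))
          (Affine.Point.some (x i : ZMod q) (y i : ZMod q) (h' i)) := fun i =>
    (redHom_up W hA hgood (h i) (hx i) (hy i)).2
  set r := redHom (intCoeff_ratCurve W A) (valuation_Δ_ratCurve W hq.out hA hgood) with hr
  set m := mapHom (ZMod.castHom (dvd_refl q) (Res A)) (map_castHom W (A := A)) with hm
  have hcomb : ∀ a : ι → ZMod p,
      r (up W (∑ i, (a i).val • Affine.Point.some (x i) (y i) (h i))) =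
        m (∑ i, (a i).val • Affine.Point.some (x i : ZMod q) (y i : ZMod q) (h' i)) := fun a => by
    simp only [map_sum, map_nsmul, hred]
  have hK : ∀ a : ι → ZMod p,
      (∃ R, p • R = ∑ i, (a i).val • Affine.Point.some (x i : ZMod q) (y i : ZMod q) (h' i)) ↔
      ∃ Q : Pts W, p • Q = up W (∑ i, (a i).val • Affine.Point.some (x i) (y i) (h i)) ∧
        σ • Q = Q := fun a => by
    constructor
    · rintro ⟨R, hR⟩
      obtain ⟨Q, hQ, hσQ, -⟩ := FA.OrderDensity.exists_fixed_lift (n := 1) hp.out hgood hqp hA hσ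
        (Z := up W (∑ i, (a i).val • Affine.Point.some (x i) (y i) (h i))) (smul_up W σ _) (R := R)
        (by rw [pow_one, hR, ← hm, ← hr, hcomb])
      exact ⟨Q, by rwa [pow_one] at hQ, hσQ⟩
    · rintro ⟨Q, hQ, hσQ⟩
      obtain ⟨R, hR⟩ := FA.BashmakovDensity.exists_red_eq_of_fixed hgood hA hσ hσQ
      refine ⟨R, mapHom_injective (ZMod.castHom (dvd_refl q) (Res A)) (map_castHom W (A := A)) ?_⟩
      show m (p • R) = m _
      rw [map_nsmul, ← hcomb, ← hQ, map_nsmul]
      exact congrArg (p • ·) hR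
  rw [dvd_index_closure_iff, Obstructs, FA.ReducedGroups.natCard_torsion_reduction W hgood
      (fun e => hqp ((Nat.prime_dvd_prime_iff_eq hq.out hp.out).mp e)) hA hσ,
    Nat.card_congr (Equiv.subtypeEquivRight hK)]

/-- **The fibres at several primes are independent.** -/
theorem exists_fibFamily_eq {S : Finset ℕ} (hS : ∀ q ∈ S, q.Prime ∧ q ≠ 2)
    (hfull : ∀ φ : Submodule.torsionBy ℤ ((ratCurve W).toAffine⁄Qb).Point
          ((∏ q ∈ S, q : ℕ) : ℤ) ≃+
        Submodule.torsionBy ℤ ((ratCurve W).toAffine⁄Qb).Point ((∏ q ∈ S, q : ℕ) : ℤ),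
      ∃ σ : GQ, ∀ T, Affine.Point.map σ.toAlgHom T.1 = (φ T).1)
    {P : ι → (ratCurve W).toAffine.Point}
    (hP : ∀ p ∈ S, ∀ a : ι → ℤ, (∃ i, ¬ ((p : ℕ) : ℤ) ∣ a i) → ∀ R, p • R ≠ ∑ i, a i • P i)
    (τ : S → GQ) : ∃ σ : GQ, ∀ p : S, fibFamily (p : ℕ) P σ = fibFamily (p : ℕ) P (τ p) := by
  set act := pointAct (ratCurve W)
  have hact : ∀ (σ : GQ) (Q : Pts W), act σ Q = σ • Q := fun _ _ => rfl
  choose Q hQ using fun (p : S) i => exists_div W (hS p p.2).1.ne_zero (up W (P i))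
  have hstab : ∀ (p : S) (σ : GQ) (x : pTors (Pts W) (p : ℕ) 1),
      act σ x.1 ∈ pTors (Pts W) (p : ℕ) 1 := fun p σ x => by
    rw [mem_pTors_one, ← map_nsmul, mem_pTors_one.mp x.2, map_zero]
  let φ : ∀ p : S, pTors (Pts W) (p : ℕ) 1 ≃+ pTors (Pts W) (p : ℕ) 1 := fun p =>
    { toFun := fun x => ⟨act (τ p) x.1, hstab p _ x⟩
      invFun := fun x => ⟨act (τ p)⁻¹ x.1, hstab p _ x⟩
      left_inv := fun x => Subtype.ext (inv_smul_smul (τ p) x.1)
      right_inv := fun x => Subtype.ext (smul_inv_smul (τ p) x.1)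
      map_add' := fun a b => Subtype.ext (map_add (act (τ p)) a.1 b.1) }
  have ht : ∀ (p : S) i, act (τ p) (Q p i) - Q p i ∈ pTors (Pts W) (p : ℕ) 1 := fun p i => by
    rw [mem_pTors_one, nsmul_sub, ← map_nsmul, hQ, hact, smul_up, sub_self]
  obtain ⟨σ, hσ⟩ := exists_act_pi act hS
    (exists_act_joint S act (fun q hq => (hS q hq).1) hfull)
    (fun p => haveI := Fact.mk (hS p p.2).1
      (exists_torsion_coord (ratCurve W) (p : ℕ) 1).some)
    (fun p i σ => by rw [hQ, hact, smul_up])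
    (fun p a ha R hR he => by
      obtain ⟨R₀, hR₀⟩ := exists_up_eq W hR
      refine hP p p.2 a ha R₀ (mapHom_injective (algebraMap ℚ Qb) rfl ?_)
      show up W ((p : ℕ) • R₀) = up W _
      rw [map_nsmul, hR₀, he, map_sum]
      exact Finset.sum_congr rfl fun i _ => by rw [map_zsmul, hQ])
    φ (fun p i => ⟨_, ht p i⟩)
  refine ⟨σ, fun p => funext fun o => Equiv.ext fun R => Subtype.ext ?_⟩
  show σ • R.1 = τ p • R.1
  cases o with
  | none => exact (hσ p).1 ⟨R.1, mem_pTors_one.mpr (R.2.trans (map_zero (up W)))⟩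
  | some i =>
    have hd : R.1 - Q p i ∈ pTors (Pts W) (p : ℕ) 1 := by
      rw [mem_pTors_one, nsmul_sub, R.2, hQ]; exact sub_self _
    have e1 : σ • (R.1 - Q p i) = τ p • (R.1 - Q p i) := (hσ p).1 ⟨_, hd⟩
    have e2 : σ • Q p i = τ p • Q p i := ((hσ p).2 i).trans (add_sub_cancel _ _)
    rw [FA.Local.gal_smul_sub (ratCurve W) σ, FA.Local.gal_smul_sub (ratCurve W) (τ p), e2] at e1
    exact sub_left_injective e1

/-- **The local factors of the constants of Lang–Trotter and Gupta–Murty.** -/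
theorem hasDirichletDensity_not_dvd_index {S : Finset ℕ} (hS : ∀ q ∈ S, q.Prime ∧ q ≠ 2)
    (hfull : ∀ φ : Submodule.torsionBy ℤ ((ratCurve W).toAffine⁄Qb).Point
          ((∏ q ∈ S, q : ℕ) : ℤ) ≃+
        Submodule.torsionBy ℤ ((ratCurve W).toAffine⁄Qb).Point ((∏ q ∈ S, q : ℕ) : ℤ),
      ∃ σ : GQ, ∀ T, Affine.Point.map σ.toAlgHom T.1 = (φ T).1)
    {x y : ι → ℚ} (h : ∀ i, (ratCurve W).toAffine.Nonsingular (x i) (y i))
    (hP : ∀ p ∈ S, ∀ a : ι → ℤ, (∃ i, ¬ ((p : ℕ) : ℤ) ∣ a i) → ∀ R,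
      p • R ≠ ∑ i, a i • Affine.Point.some (x i) (y i) (h i)) :
    {v : HeightOneSpectrum (𝓞 ℚ) | ∃ _ : Fact (Ideal.absNorm v.asIdeal).Prime,
      ∃ h : ∀ i, (W.map (Int.castRingHom
          (ZMod (Ideal.absNorm v.asIdeal)))).toAffine.Nonsingular
        (x i : ZMod (Ideal.absNorm v.asIdeal)) (y i),
      ∀ p ∈ S, ¬ p ∣ (AddSubgroup.closure (Set.range fun i =>
        Affine.Point.some (x i : ZMod (Ideal.absNorm v.asIdeal)) _ (h i))).index
      }.HasDirichletDensity (∏ p ∈ S, (1 - obstructDensity p (Fintype.card ι))) := by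
  set P := fun i => Affine.Point.some (x i) (y i) (h i) with hPdef
  haveI hpr : ∀ p : S, Fact (p : ℕ).Prime := fun p => ⟨(hS p p.2).1⟩
  haveI := fun (p : S) (o : Option ι) => finite_fib W (hpr p).out.ne_zero (o.elim 0 P)
  set π' := MonoidHom.pi fun p : S => fibFamily (p : ℕ) P with hπ'
  set π := π'.rangeRestrict with hπ
  let _ : Fintype π'.range := Fintype.ofFinite _
  let X : Set π'.range :=
    {g | ∀ p : S, ∀ σ, fibFamily (p : ℕ) P σ = g.1 p → ¬ Obstructs (p : ℕ) P σ}
  have hX : ∀ g ∈ X, ∀ z, z * g * z⁻¹ ∈ X := by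
    rintro ⟨_, σ, rfl⟩ hg ⟨_, τ, rfl⟩ p ρ hρ hob
    have e : fibFamily (p : ℕ) P ρ = fibFamily (p : ℕ) P (τ * σ * τ⁻¹) := by
      rw [hρ, map_mul, map_mul, map_inv]
      rfl
    exact hg p σ rfl ((obstructs_conj σ τ).mp ((obstructs_congr e).mp hob))
  have hker : IsOpen (π.ker : Set GQ) := by
    have e1 : (π.ker : Set GQ) =
        ⋂ p : S, ⋂ o : Option ι, ((fibHom W (p : ℕ) (o.elim 0 P)).ker : Set GQ) := by
      rw [hπ, MonoidHom.ker_rangeRestrict]
      ext σ; simp [hπ', fibFamily, funext_iff]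
    rw [e1]
    exact isOpen_iInter_of_finite fun p => isOpen_iInter_of_finite fun o =>
      isOpen_ker_fibHom W (hpr p).out.ne_zero _
  have hd := FA.Chebotarev.hasDirichletDensity_frobSet π (MonoidHom.rangeRestrict_surjective _)
    hker hX
  let E : π'.range ≃ ∀ p : S, (fibFamily (p : ℕ) P).range :=
    { toFun := fun g p => ⟨g.1 p, g.2.choose, congrFun g.2.choose_spec p⟩
      invFun := fun g => ⟨fun p => (g p).1, by
        obtain ⟨σ, hσ⟩ := exists_fibFamily_eq hS hfull hP fun p => (g p).2.choose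
        exact ⟨σ, funext fun p => (hσ p).trans (g p).2.choose_spec⟩⟩
      left_inv := fun _ => rfl
      right_inv := fun _ => rfl }
  have hA : ∀ p : S, FA.BashmakovDensity.AffineImageFamily W (p : ℕ) P := fun p => by
    refine FA.BashmakovDensity.affineImageFamily (hS p p.2).2 ?_ (hP p p.2)
    have e1 : ((p : ℕ) : ℤ) ^ 1 = ((p : ℕ) : ℤ) := pow_one _
    have h1 := exists_act_joint S (pointAct (ratCurve W)) (fun q hq => (hS q hq).1) hfull
    have h2 : ∀ φ : pTors (Pts W) (p : ℕ) 1 ≃+ pTors (Pts W) (p : ℕ) 1, ∃ σ : GQ, ∀ T,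
        Affine.Point.map σ.toAlgHom T.1 = (φ T).1 := fun φ => by
      obtain ⟨σ, hσ⟩ := h1 (Function.update (fun q => AddEquiv.refl _) p φ)
      exact ⟨σ, fun T => (hσ p T).trans (by rw [Function.update_self])⟩
    unfold pTors at h2
    rw [e1] at h2
    exact h2
  have hval : (Nat.card X : ℝ) / Fintype.card π'.range =
      ∏ p ∈ S, (1 - obstructDensity p (Fintype.card ι)) := by
    rw [← Finset.prod_coe_sort S, ← Nat.card_eq_fintype_card, Nat.card_congr E, Nat.card_pi,
      Nat.card_congr ((E.subtypeEquiv (p := fun g => g ∈ X)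
        (q := fun g => ∀ p : S, ∀ σ, fibFamily (p : ℕ) P σ = (g p).1 → ¬ Obstructs (p : ℕ) P σ)
        fun g => Iff.rfl).trans
        (Equiv.subtypePiEquivPi (p := fun (p : S) (g : (fibFamily (p : ℕ) P).range) =>
          ∀ σ, fibFamily (p : ℕ) P σ = g.1 → ¬ Obstructs (p : ℕ) P σ)) : X ≃ _),
      Nat.card_pi, Nat.cast_prod, Nat.cast_prod, ← Finset.prod_div_distrib]
    exact Finset.prod_congr rfl fun p _ => card_unobstructed_range (hA p)
  rw [hval] at hd
  set N : ℕ := W.Δ.natAbs * (∏ p ∈ S, p) * ∏ i, (x i).den * (y i).den with hN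
  have hN0 : N ≠ 0 := by
    have hΔ : W.Δ.natAbs ≠ 0 := fun e => (ratCurve W).isUnit_Δ.ne_zero (by
      simp [ratCurve, Int.natAbs_eq_zero.mp e])
    have hpS : (∏ p ∈ S, p) ≠ 0 := Finset.prod_ne_zero_iff.mpr fun p hp => (hS p hp).1.ne_zero
    simp [hN, hΔ, hpS, Finset.prod_ne_zero_iff]
  refine FA.TraceDist.hasDirichletDensity_congr hd (finite_absNorm_dvd hN0) fun v hv => ?_
  haveI := Fact.mk (FA.Chebotarev.absNorm_prime v)
  set q := Ideal.absNorm v.asIdeal
  have hnd : ∀ {m : ℕ}, m ∣ N → ¬ q ∣ m := fun hm e => hv (e.trans hm)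
  have hgood : W.IsGoodPrimeFor q := fun e =>
    hnd ((dvd_mul_right _ _).mul_right _) (Int.natCast_dvd.mp e)
  have hqp : ∀ p : S, q ≠ p := fun p e =>
    hnd (((Finset.dvd_prod_of_mem id p.2).mul_left _).mul_right _) (e ▸ dvd_rfl)
  have hi : ∀ i, (x i).den * (y i).den ∣ N := fun i =>
    (Finset.dvd_prod_of_mem (fun i => (x i).den * (y i).den) (Finset.mem_univ i)).mul_left _
  have hx : ∀ i, ¬ q ∣ (x i).den := fun i => hnd ((dvd_mul_right _ _).trans (hi i))
  have hy : ∀ i, ¬ q ∣ (y i).den := fun i => hnd ((dvd_mul_left _ _).trans (hi i))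
  obtain ⟨A₀, hA₀⟩ := FA.Deform.exists_liesOverPrime (FA.Chebotarev.absNorm_prime v)
  obtain ⟨σ₀, hσ₀⟩ := FA.Deform.exists_isFrobeniusAt (FA.Chebotarev.absNorm_prime v) hA₀
  haveI : CharP (Res A₀) q := residueField_charP A₀ Fact.out hA₀
  haveI := redCurve_isElliptic (intCoeff_ratCurve W A₀)
    (valuation_Δ_ratCurve W Fact.out hA₀ hgood)
  have h' := fun i => (redHom_up W hA₀ hgood (h i) (hx i) (hy i)).1
  constructor
  · intro hfr
    refine ⟨inferInstance, h', fun p hp hdvd => ?_⟩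
    haveI := Fact.mk (hS p hp).1
    exact hfr A₀ hA₀ σ₀ hσ₀ ⟨p, hp⟩ σ₀ rfl
      ((dvd_index_iff_obstructs h hgood (hqp ⟨p, hp⟩) hx hy h' hA₀ hσ₀).mp hdvd)
  · rintro ⟨_, h'', hall⟩ A hA σ hσ p ρ hρ hob
    exact hall p p.2 ((dvd_index_iff_obstructs h hgood (hqp p) hx hy h'' hA hσ).mpr
      ((obstructs_congr hρ).mp hob))

end FA.PrimitivePoint

end
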