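import Fermat.Agent.Bashmakov.Family

/-!
# Kummer theory at several primes at once

If every automorphism of the `N`-torsion is induced, `N` a product of distinct odd primes, and for
each of them a point `Q p` has `p (Q p)` fixed and not `p` times a fixed point, then every family of
automorphisms of the `p`-torsion groups and translations of the `Q p` is induced by one element:
the commutator with an element acting as `-1` at `p` and trivially at the other primes gives a
translation trivial on all the torsion, and a multiple of it moves the `Q p i` only.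
-/

set_option autoImplicit false
set_option linter.style.haveILetI false

noncomputable section

namespace FA.PrimitivePoint

open FA.Bashmakov

variable {A : Type*} [AddCommGroup A]

/-- Multiples congruent to one fix the `p`-torsion. -/
theorem zsmul_eq_self {p : ℕ} {k : ℤ} (hk : (k : ZMod p) = 1) {y : A} (hy : p • y = 0) :
    k • y = y := by
  obtain ⟨d, hd⟩ : (p : ℤ) ∣ k - 1 := by
    rw [← ZMod.intCast_zmod_eq_zero_iff_dvd, Int.cast_sub, hk, Int.cast_one, sub_self]
  rw [show k = d * (p : ℤ) + 1 by linarith, add_zsmul, one_zsmul, mul_smul, natCast_zsmul, hy,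
    zsmul_zero, zero_add]

variable (S : Finset ℕ)

/-- The product of the other primes. -/
def others (p : ℕ) : ℕ := ∏ q ∈ S.erase p, q

theorem dvd_others {p q : ℕ} (hq : q ∈ S) (hne : q ≠ p) : q ∣ others S p :=
  Finset.dvd_prod_of_mem id (Finset.mem_erase.mpr ⟨hne, hq⟩)

theorem others_ne_zero (hS : ∀ q ∈ S, q.Prime) {p : ℕ} (hp : p ∈ S) :
    (others S p : ZMod p) ≠ 0 := by
  haveI := Fact.mk (hS p hp)
  rw [others, Nat.cast_prod, Finset.prod_ne_zero_iff]
  intro q hq h
  obtain ⟨hne, hqS⟩ := Finset.mem_erase.mp hq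
  exact hne ((Nat.prime_dvd_prime_iff_eq (hS p hp) (hS q hqS)).mp
    ((ZMod.natCast_eq_zero_iff q p).mp h)).symm

/-- An integer which is one modulo `p` and zero modulo the other primes. -/
def idem (p : ℕ) : ℕ := others S p * ((others S p : ZMod p)⁻¹).val

theorem idem_cast (hS : ∀ q ∈ S, q.Prime) {p : ℕ} (hp : p ∈ S) :
    (idem S p : ZMod p) = 1 := by
  haveI := Fact.mk (hS p hp)
  rw [idem, Nat.cast_mul, ZMod.natCast_zmod_val, mul_inv_cancel₀ (others_ne_zero S hS hp)]

theorem mem_pTors_one {p : ℕ} {y : A} : y ∈ pTors A p 1 ↔ p • y = 0 := by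
  rw [mem_pTors, pow_one]

/-- It fixes the `p`-torsion. -/
theorem idem_nsmul (hS : ∀ q ∈ S, q.Prime) {p : ℕ} (hp : p ∈ S) {y : A}
    (hy : y ∈ pTors A p 1) : idem S p • y = y := by
  rw [← natCast_zsmul]
  exact zsmul_eq_self (by rw [Int.cast_natCast, idem_cast S hS hp]) (mem_pTors_one.mp hy)

/-- It kills the torsion at the other primes. -/
theorem idem_nsmul_of_ne {p q : ℕ} (hq : q ∈ S) (hne : q ≠ p) {y : A}
    (hy : y ∈ pTors A q 1) : idem S p • y = 0 := by
  obtain ⟨d, hd⟩ := dvd_others S hq hne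
  rw [idem, hd, mul_assoc, mul_comm, mul_nsmul', mem_pTors_one.mp hy, nsmul_zero]

variable {G : Type*} [Group G] (act : G →* AddMonoid.End A)

/-- One element inducing given automorphisms at all the primes. -/
theorem exists_act_joint (hS : ∀ q ∈ S, q.Prime)
    (hfull : ∀ φ : Submodule.torsionBy ℤ A ((∏ q ∈ S, q : ℕ) : ℤ) ≃+
        Submodule.torsionBy ℤ A ((∏ q ∈ S, q : ℕ) : ℤ), ∃ σ, ∀ x, act σ x.1 = (φ x).1)
    (φ : ∀ p : S, pTors A p 1 ≃+ pTors A p 1) :
    ∃ σ, ∀ (p : S) (x : pTors A p 1), act σ x.1 = (φ p x).1 := by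
  classical
  set N := ∏ q ∈ S, q with hN
  set T := Submodule.torsionBy ℤ A (N : ℤ)
  have hT : ∀ {y : A}, y ∈ T ↔ N • y = 0 := fun {y} => by
    rw [Submodule.mem_torsionBy_iff, natCast_zsmul]
  have hle : ∀ (p : S) {y : A}, y ∈ pTors A p 1 → y ∈ T := fun p y hy => by
    obtain ⟨d, hd⟩ : (p : ℕ) ∣ N := Finset.dvd_prod_of_mem id p.2
    rw [hT, hd, mul_comm, mul_nsmul', mem_pTors_one.mp hy, nsmul_zero]
  have hpr : ∀ (p : S) (x : T), idem S p • x.1 ∈ pTors A p 1 := fun p x => by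
    have hd : others S (p : ℕ) * (p : ℕ) = N := Finset.prod_erase_mul S id p.2
    rw [mem_pTors_one, ← mul_nsmul', idem, ← mul_assoc, mul_comm (p : ℕ), hd, mul_comm,
      mul_nsmul', hT.mp x.2, nsmul_zero]
  have hdec : ∀ x : T, ∑ p : S, idem S p • x.1 = x.1 := fun x => by
    have hdvd : (N : ℤ) ∣ (∑ p : S, (idem S p : ℤ)) - 1 := by
      rw [hN, Nat.cast_prod]
      refine Finset.prod_dvd_of_coprime (fun a ha b hb hab => ?_) fun q hq => ?_
      · exact Int.isCoprime_iff_nat_coprime.mpr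
          (by simpa using (Nat.coprime_primes (hS a ha) (hS b hb)).mpr hab)
      · rw [← ZMod.intCast_zmod_eq_zero_iff_dvd, Int.cast_sub, Int.cast_sum, Int.cast_one,
          Finset.sum_eq_single (⟨q, hq⟩ : S), Int.cast_natCast, idem_cast S hS hq, sub_self]
        · intro p _ hne
          rw [Int.cast_natCast, idem, Nat.cast_mul,
            (ZMod.natCast_eq_zero_iff _ q).mpr (dvd_others S hq
              fun e => hne (Subtype.ext e.symm)), zero_mul]
        · exact fun h => absurd (Finset.mem_univ _) h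
    obtain ⟨d, hd⟩ := hdvd
    have e : ∑ p : S, idem S p • x.1 = (∑ p : S, (idem S p : ℤ)) • x.1 := by
      rw [Finset.sum_smul]
      exact Finset.sum_congr rfl fun p _ => (natCast_zsmul _ _).symm
    rw [e, show (∑ p : S, (idem S p : ℤ)) = d * (N : ℤ) + 1 by linarith, add_zsmul, one_zsmul,
      mul_smul, natCast_zsmul, hT.mp x.2, zsmul_zero, zero_add]
  let comp : ∀ p : S, T →+ pTors A p 1 := fun p =>
    AddMonoidHom.mk' (fun x => ⟨idem S p • x.1, hpr p x⟩) fun a b =>
      Subtype.ext (nsmul_add _ _ _)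
  let incl : ∀ p : S, pTors A p 1 →+ T := fun p =>
    AddMonoidHom.mk' (fun y => ⟨y.1, hle p y.2⟩) fun _ _ => rfl
  let F : (∀ p : S, pTors A p 1 ≃+ pTors A p 1) → (T →+ T) := fun ψ =>
    ∑ p : S, (incl p).comp ((ψ p).toAddMonoidHom.comp (comp p))
  have hF : ∀ ψ x, (F ψ x).1 = ∑ p : S, (ψ p (comp p x)).1 := fun ψ x => by
    simp [F, incl]
  have hcomp : ∀ ψ (p : S) x, comp p (F ψ x) = ψ p (comp p x) := fun ψ p x => by
    refine Subtype.ext ?_
    show idem S p • (F ψ x).1 = _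
    rw [hF, Finset.smul_sum, Finset.sum_eq_single p]
    · exact idem_nsmul S hS p.2 (ψ p _).2
    · intro q _ hne
      exact idem_nsmul_of_ne S q.2 (fun e => hne (Subtype.ext e)) (ψ q _).2
    · exact fun h => absurd (Finset.mem_univ _) h
  have hinv : ∀ ψ ψ', (∀ p y, ψ p (ψ' p y) = y) → ∀ x, F ψ (F ψ' x) = x := fun ψ ψ' h x => by
    refine Subtype.ext ?_
    rw [hF]
    refine (Finset.sum_congr rfl fun p _ => ?_).trans (hdec x)
    rw [hcomp, h]
    rfl
  let Φ : T ≃+ T :=
    { toFun := F φ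
      invFun := F fun p => (φ p).symm
      left_inv := hinv _ _ fun p y => (φ p).symm_apply_apply y
      right_inv := hinv _ _ fun p y => (φ p).apply_symm_apply y
      map_add' := map_add _ }
  obtain ⟨σ, hσ⟩ := hfull Φ
  refine ⟨σ, fun p x => ?_⟩
  rw [hσ ⟨x.1, hle p x.2⟩]
  show (F φ _).1 = _
  rw [hF, Finset.sum_eq_single p]
  · exact congrArg (fun z => (φ p z).1) (Subtype.ext (idem_nsmul S hS p.2 x.2))
  · intro q _ hne
    rw [show comp q ⟨x.1, hle p x.2⟩ = 0 from
        Subtype.ext (idem_nsmul_of_ne S p.2 (fun e => hne (Subtype.ext e.symm)) x.2), map_zero,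
      ZeroMemClass.coe_zero]
  · exact fun h => absurd (Finset.mem_univ _) h

variable {S} {ι : Type*} [Fintype ι]

/-- **A translation at one prime only**, trivial on all the torsion. -/
theorem exists_translation (hS : ∀ q ∈ S, q.Prime ∧ q ≠ 2)
    (hjoint : ∀ φ : ∀ p : S, pTors A p 1 ≃+ pTors A p 1,
      ∃ σ, ∀ (p : S) (x : pTors A p 1), act σ x.1 = (φ p x).1)
    (c : ∀ p : S, (Fin 2 → ZMod ((p : ℕ) ^ 1)) ≃+ pTors A p 1)
    {Q : S → ι → A} (hQ : ∀ (p : S) (i : ι) σ, act σ ((p : ℕ) • Q p i) = (p : ℕ) • Q p i)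
    (hP : ∀ (p : S) (a : ι → ℤ), (∃ i, ¬ ((p : ℕ) : ℤ) ∣ a i) → ∀ R : A, (∀ σ, act σ R = R) →
      (p : ℕ) • R ≠ ∑ i, a i • (p : ℕ) • Q p i)
    (p : S) (w : ι → pTors A p 1) :
    ∃ g, (∀ (q : S) (x : pTors A q 1), act g x.1 = x.1) ∧
      (∀ i, act g (Q p i) = Q p i + (w i).1) ∧ ∀ q, q ≠ p → ∀ i, act g (Q q i) = Q q i := by
  classical
  have hS' : ∀ q ∈ S, q.Prime := fun q hq => (hS q hq).1
  haveI := Fact.mk (hS' p p.2)
  have hmul : ∀ (σ τ : G) (y : A), act (σ * τ) y = act σ (act τ y) := fun σ τ y => by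
    rw [map_mul]; rfl
  have hinv : ∀ (σ : G) (y : A), act σ (act σ⁻¹ y) = y := fun σ y => by
    rw [← hmul, mul_inv_cancel, map_one]; rfl
  have hinv' : ∀ (σ : G) (y : A), act σ⁻¹ (act σ y) = y := fun σ y => by
    rw [← hmul, inv_mul_cancel, map_one]; rfl
  have hstab : ∀ (σ : G) (q : S) {y : A}, y ∈ pTors A q 1 → act σ y ∈ pTors A q 1 :=
    fun σ q y hy => by
      rw [mem_pTors_one] at hy ⊢
      rw [← map_nsmul, hy, map_zero]
  have hd : ∀ (σ : G) (q : S) (i : ι), act σ (Q q i) - Q q i ∈ pTors A q 1 := fun σ q i => by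
    rw [mem_pTors_one, nsmul_sub, ← map_nsmul, hQ, sub_self]
  have hfull₁ : ∀ φ : pTors A p 1 ≃+ pTors A p 1, ∃ σ, ∀ x, act σ x.1 = (φ x).1 := fun φ => by
    obtain ⟨σ, hσ⟩ := hjoint (Function.update (fun q => AddEquiv.refl _) p φ)
    exact ⟨σ, fun x => by rw [hσ p x, Function.update_self]⟩
  have hu : (-(2 * others S p : ℕ) : ZMod p) ≠ 0 := by
    rw [neg_ne_zero, Nat.cast_mul]
    refine mul_ne_zero ?_ (others_ne_zero S hS' p.2)
    intro h
    exact (hS p p.2).2 ((Nat.prime_dvd_prime_iff_eq (hS' p p.2) Nat.prime_two).mp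
      ((ZMod.natCast_eq_zero_iff 2 p).mp h))
  set z : ℕ := ((-(2 * others S p : ℕ) : ZMod p)⁻¹).val with hz
  obtain ⟨g, hg, hgQ⟩ := LinearDependence.exists_act_family act (hS p p.2).2 (c p) hfull₁
    (Q := Q p) (hQ p) (hP p) (AddEquiv.refl _) (fun i => z • w i)
  have hg' : ∀ {y : A}, y ∈ pTors A p 1 → act g y = y := fun {y} hy => hg ⟨y, hy⟩
  obtain ⟨τ, hτ⟩ := hjoint (Function.update (fun q => AddEquiv.refl _) p (AddEquiv.neg _))
  have hneg : ∀ {y : A}, y ∈ pTors A p 1 → act τ y = -y := fun {y} hy => by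
    simpa [Function.update_self] using hτ p ⟨y, hy⟩
  have hone : ∀ q : S, q ≠ p → ∀ {y : A}, y ∈ pTors A q 1 → act τ y = y := fun q hq y hy => by
    simpa [Function.update_of_ne hq] using hτ q ⟨y, hy⟩
  set k := τ * g * τ⁻¹ * g⁻¹ with hk
  have hktriv : ∀ (q : S) {y : A}, y ∈ pTors A q 1 → act k y = y := fun q y hy => by
    rw [hk, hmul, hmul, hmul]
    set s := act g⁻¹ y with hs
    have hsm : s ∈ pTors A q 1 := hstab _ q hy
    have hgs : act g s = y := hinv g y
    by_cases hqp : q = p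
    · subst hqp
      rw [show act τ⁻¹ s = -s by
        have e := congrArg (act τ⁻¹) (hneg (neg_mem hsm))
        rw [hinv', neg_neg] at e
        exact e.symm, map_neg, hgs, hneg (neg_mem hy), neg_neg]
    · rw [show act τ⁻¹ s = s by
        conv_lhs => rw [← hone q hqp hsm]
        exact hinv' τ s, hgs, hone q hqp hy]
  set a : ι → A := fun i => (z • w i : pTors A p 1).1 with ha
  have ham : ∀ i, a i ∈ pTors A p 1 := fun i => (z • w i : pTors A p 1).2
  have hkQ : ∀ i, act k (Q p i) = Q p i - (a i + a i) := fun i => by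
    have e1 : act g⁻¹ (Q p i) = Q p i - a i := by
      have e := congrArg (act g⁻¹) (show act g (Q p i - a i) = Q p i by
        rw [map_sub, (hgQ i), hg' (ham i), add_sub_cancel_right])
      rw [hinv'] at e
      exact e.symm
    set s := act τ⁻¹ (Q p i) - Q p i with hs
    have hsm : s ∈ pTors A p 1 := hd _ p i
    have e2 : act τ⁻¹ (a i) = -(a i) := by
      have e := congrArg (act τ⁻¹) (hneg (neg_mem (ham i)))
      rw [hinv', neg_neg] at e
      exact e.symm
    rw [hk, hmul, hmul, hmul, e1, map_sub, e2, show act τ⁻¹ (Q p i) = Q p i + s by rw [hs]; abel,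
      map_sub, map_add, map_neg, (hgQ i), hg' hsm, hg' (ham i),
      show Q p i + a i + s - -(a i) = act τ⁻¹ (Q p i) + (a i + a i) by rw [hs]; abel, map_add,
      map_add (act τ), hinv, hneg (ham i)]
    abel
  have hiter : ∀ (j : ℕ) (q : S) (i : ι),
      act (k ^ j) (Q q i) = Q q i + j • (act k (Q q i) - Q q i) := by
    intro j q i
    induction j with
    | zero => rw [pow_zero, map_one, zero_nsmul, add_zero]; rfl
    | succ j ih =>
      rw [pow_succ', hmul, ih, map_add, map_nsmul, hktriv q (hd k q i), succ_nsmul]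
      abel
  have hpow : ∀ (j : ℕ) (q : S) (x : pTors A q 1), act (k ^ j) x.1 = x.1 := by
    intro j q x
    induction j with
    | zero => rw [pow_zero, map_one]; rfl
    | succ j ih => rw [pow_succ', hmul, ih, hktriv q x.2]
  refine ⟨k ^ others S p, hpow _, fun i => ?_, fun q hq i => ?_⟩
  · rw [hiter, hkQ, show Q p i - (a i + a i) - Q p i = -((2 : ℕ) • a i) by rw [two_nsmul]; abel]
    congr 1
    have e : others S p • -((2 : ℕ) • a i) =
        (-((2 * others S p : ℕ) : ℤ) * (z : ℤ)) • (w i).1 := by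
      simp only [ha]
      rw [Submodule.coe_smul_of_tower, neg_mul, neg_zsmul, smul_neg, ← Nat.cast_mul,
        natCast_zsmul, ← mul_nsmul', ← mul_nsmul', mul_comm (others S p) 2]
    rw [e]
    refine zsmul_eq_self ?_ (mem_pTors_one.mp (w i).2)
    rw [Int.cast_mul, Int.cast_neg, Int.cast_natCast, Int.cast_natCast, hz, ZMod.natCast_zmod_val]
    exact mul_inv_cancel₀ hu
  · obtain ⟨d, hd'⟩ := dvd_others S q.2 (fun e => hq (Subtype.ext e))
    rw [hiter, hd', mul_comm, mul_nsmul', mem_pTors_one.mp (hd k q i), nsmul_zero, add_zero]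

/-- **Every family of automorphisms and translations is induced.** -/
theorem exists_act_pi (hS : ∀ q ∈ S, q.Prime ∧ q ≠ 2)
    (hjoint : ∀ φ : ∀ p : S, pTors A p 1 ≃+ pTors A p 1,
      ∃ σ, ∀ (p : S) (x : pTors A p 1), act σ x.1 = (φ p x).1)
    (c : ∀ p : S, (Fin 2 → ZMod ((p : ℕ) ^ 1)) ≃+ pTors A p 1)
    {Q : S → ι → A} (hQ : ∀ (p : S) (i : ι) σ, act σ ((p : ℕ) • Q p i) = (p : ℕ) • Q p i)
    (hP : ∀ (p : S) (a : ι → ℤ), (∃ i, ¬ ((p : ℕ) : ℤ) ∣ a i) → ∀ R : A, (∀ σ, act σ R = R) →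
      (p : ℕ) • R ≠ ∑ i, a i • (p : ℕ) • Q p i)
    (φ : ∀ p : S, pTors A p 1 ≃+ pTors A p 1) (t : ∀ p : S, ι → pTors A p 1) :
    ∃ σ, ∀ p : S, (∀ x : pTors A p 1, act σ x.1 = (φ p x).1) ∧
      ∀ i, act σ (Q p i) = Q p i + (t p i).1 := by
  classical
  have hmul : ∀ (σ τ : G) (y : A), act (σ * τ) y = act σ (act τ y) := fun σ τ y => by
    rw [map_mul]; rfl
  have hinv : ∀ (σ : G) (y : A), act σ (act σ⁻¹ y) = y := fun σ y => by
    rw [← hmul, mul_inv_cancel, map_one]; rfl
  have key : ∀ (J : Finset S) (v : ∀ p : S, ι → pTors A p 1), (∀ p, p ∉ J → v p = 0) →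
      ∃ g, ∀ p : S, (∀ x : pTors A p 1, act g x.1 = x.1) ∧
        ∀ i, act g (Q p i) = Q p i + (v p i).1 := by
    intro J
    induction J using Finset.induction_on with
    | empty =>
      intro v hv
      exact ⟨1, fun p => ⟨fun x => by rw [map_one]; rfl, fun i => by
        rw [hv p (Finset.notMem_empty _), Pi.zero_apply, ZeroMemClass.coe_zero, add_zero,
          map_one]; rfl⟩⟩
    | @insert j J hj ih =>
      intro v hv
      obtain ⟨h, hh⟩ := ih (Function.update v j 0) fun p hp => by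
        rcases eq_or_ne p j with rfl | hne
        · exact Function.update_self ..
        · rw [Function.update_of_ne hne]
          exact hv p fun hm => (Finset.mem_insert.mp hm).elim hne hp
      obtain ⟨g, hg, hgj, hgne⟩ := exists_translation act hS hjoint c hQ hP j (v j)
      refine ⟨g * h, fun p => ⟨fun x => by rw [hmul, (hh p).1 x, hg p x], fun i => ?_⟩⟩
      rw [hmul, (hh p).2 i, map_add]
      rcases eq_or_ne p j with rfl | hne
      · rw [hgj, Function.update_self, Pi.zero_apply, ZeroMemClass.coe_zero, map_zero, add_zero]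
      · rw [hgne p hne, Function.update_of_ne hne, hg p (v p i)]
  obtain ⟨σ, hσ⟩ := hjoint φ
  have hw : ∀ (p : S) (i : ι),
      act σ⁻¹ ((t p i).1 - (act σ (Q p i) - Q p i)) ∈ pTors A p 1 := fun p i => by
    rw [mem_pTors_one, ← map_nsmul]
    have h1 : (p : ℕ) • ((t p i).1 - (act σ (Q p i) - Q p i)) = 0 := by
      rw [nsmul_sub, mem_pTors_one.mp (t p i).2, nsmul_sub, ← map_nsmul, hQ, sub_self, sub_self]
    rw [h1, map_zero]
  obtain ⟨g, hg⟩ := key Finset.univ (fun p i => ⟨_, hw p i⟩) fun p hp =>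
    absurd (Finset.mem_univ p) hp
  refine ⟨σ * g, fun p => ⟨fun x => by rw [hmul, (hg p).1 x, hσ p x], fun i => ?_⟩⟩
  rw [hmul, (hg p).2 i, map_add, hinv]
  abel

end FA.PrimitivePoint

end
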